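/-
P-ES / ES-C1-DEG (row 329, helper65): the degree of the degeneracy map `α` is `ℓ + 1`.

`[F_{Nℓ}(ℂ) : F_N(ℂ)] = ℓ + 1` for a prime `ℓ ∤ N`, from the degree statement
`[F_M(ℂ) : ℂ(j)] = [SL(2,ℤ) : Γ₀(M)]` (ES-A / DEG-C) at the levels `N` and `N ℓ`, the tower law
and the index computation `[Γ₀(N) : Γ₀(N ℓ)] = ℓ + 1` (landed, `H57.Gamma0Index`).
-/
import Fermat.Agent.H21.EsC.Interfaces
import Fermat.Agent.H23.EsA.Parts
import Fermat.Agent.H57.Gamma0Index

set_option autoImplicit false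
set_option linter.style.haveILetI false

noncomputable section

open AlgebraicCurve IntermediateField
open scoped MatrixGroups

namespace Fermat.Agent.H65

/-- The degree of an intermediate field `B` over the subfield generated by one of its elements
is the relative degree computed in the ambient field. -/
theorem finrank_adjoin_coe_eq_relfinrank {K E : Type*} [Field K] [Field E] [Algebra K E]
    (B : IntermediateField K E) (x : B) :
    Module.finrank K⟮x⟯ B = IntermediateField.relfinrank K⟮(x : E)⟯ B := by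
  have h1 : (K⟮(x : E)⟯).comap B.val = K⟮x⟯ := by
    have h2 : K⟮(x : E)⟯ = (K⟮x⟯).map B.val := by
      rw [IntermediateField.adjoin_map, Set.image_singleton]
      rfl
    rw [h2, IntermediateField.comap_map]
  have h3 := IntermediateField.finrank_comap (A := K⟮(x : E)⟯) B.val
  rw [IntermediateField.fieldRange_val, h1] at h3
  exact h3

/-- The degree along an inclusion of intermediate fields is the relative degree. -/
theorem finrankAlong_inclusion_eq_relfinrank {K E : Type*} [Field K] [Field E] [Algebra K E]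
    {A B : IntermediateField K E} (h : A ≤ B) :
    finrankAlong K (IntermediateField.inclusion h) = IntermediateField.relfinrank A B := by
  rw [IntermediateField.relfinrank_eq_finrank_of_le h]
  unfold finrankAlong
  letI := algebraAlong (IntermediateField.inclusion h)
  let e : ↥B ≃ₗ[↥A] ↥(IntermediateField.extendScalars h) :=
    { toFun := fun x => ⟨x.1, x.2⟩
      invFun := fun x => ⟨x.1, x.2⟩
      map_add' := fun _ _ => rfl
      map_smul' := fun _ _ => rfl
      left_inv := fun _ => rfl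
      right_inv := fun _ => rfl }
  exact e.finrank_eq

/-- **ES-C1-DEG** from **DEG-C** at the two levels `N` and `N ℓ`. -/
theorem finrankAlong_heckeAlphaBar_of_degreeC (N ℓ : ℕ) [NeZero N] [NeZero ℓ]
    (hℓ : ℓ.Prime) (hℓN : ¬ ℓ ∣ N)
    (hN : Fermat.Agent.H23.EsA.DegreeCStatement N)
    (hNℓ : Fermat.Agent.H23.EsA.DegreeCStatement (N * ℓ)) :
    finrankAlong ℂ (ModularCurve.heckeAlphaBar ℂ N ℓ) = ℓ + 1 := by
  obtain ⟨-, -, h1⟩ := hN
  obtain ⟨-, -, h2⟩ := hNℓ
  rw [finrank_adjoin_coe_eq_relfinrank] at h1 h2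
  have hle : Fermat.Agent.H23.EsA.FC N ≤ Fermat.Agent.H23.EsA.FC (N * ℓ) := by
    intro x hx
    exact (ModularCurve.heckeAlphaBar ℂ N ℓ ⟨x, hx⟩).2
  have hα : ModularCurve.heckeAlphaBar ℂ N ℓ = IntermediateField.inclusion hle := rfl
  rw [hα, finrankAlong_inclusion_eq_relfinrank]
  have hJ : ℂ⟮((Fermat.Agent.H23.EsA.jC N 1 (one_dvd N) : ↥(Fermat.Agent.H23.EsA.FC N)) :
      LaurentSeries ℂ)⟯ ≤ Fermat.Agent.H23.EsA.FC N := by
    rw [IntermediateField.adjoin_le_iff]
    rintro _ rfl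
    exact (Fermat.Agent.H23.EsA.jC N 1 (one_dvd N)).2
  have hmul := IntermediateField.relfinrank_mul_relfinrank hJ hle
  have hj : ((Fermat.Agent.H23.EsA.jC (N * ℓ) 1 (one_dvd (N * ℓ)) :
      ↥(Fermat.Agent.H23.EsA.FC (N * ℓ))) : LaurentSeries ℂ)
      = ((Fermat.Agent.H23.EsA.jC N 1 (one_dvd N) : ↥(Fermat.Agent.H23.EsA.FC N)) :
        LaurentSeries ℂ) := rfl
  rw [hj] at h2
  rw [h1, h2] at hmul
  have hi1 : Nat.card (SL(2, ℤ) ⧸ CongruenceSubgroup.Gamma0 N) = ModularCurve.dedekindPsi N :=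
    Fermat.Agent.H57.index_Gamma0 N
  have hi2 : Nat.card (SL(2, ℤ) ⧸ CongruenceSubgroup.Gamma0 (N * ℓ))
      = ModularCurve.dedekindPsi (N * ℓ) :=
    Fermat.Agent.H57.index_Gamma0 (N * ℓ)
  rw [hi1, hi2, Fermat.Agent.H57.dedekindPsi_mul_prime_of_not_dvd (NeZero.ne N) hℓ hℓN,
    mul_comm] at hmul
  have hpos : 0 < ModularCurve.dedekindPsi N := by
    rw [← Fermat.Agent.H57.index_Gamma0 N]
    have : (CongruenceSubgroup.Gamma0 N).FiniteIndex := inferInstance
    exact Nat.pos_of_ne_zero (Subgroup.FiniteIndex.index_ne_zero)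
  exact Nat.eq_of_mul_eq_mul_right hpos hmul

/-- **ES-C1-DEG** (row 329), conditional on **DEG-C** (ES-A row 286) at all levels. -/
theorem degreeAlphaStatement_of_degreeC
    (h : ∀ (M : ℕ) [NeZero M], Fermat.Agent.H23.EsA.DegreeCStatement M) :
    Fermat.Agent.H21.EsC.DegreeAlphaStatement ℂ := by
  intro N ℓ _ _ hℓ hℓN
  exact finrankAlong_heckeAlphaBar_of_degreeC N ℓ hℓ hℓN (h N) (h (N * ℓ))

end Fermat.Agent.H65

end
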