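/-
P-ES / ES-C1-DEG (row 329, helper65): `DegreeAlphaStatement ℂ`, unconditional.
-/
import Fermat.Agent.H65.EsC.DegreeAlpha
import Fermat.Agent.H69.DegreeC

set_option autoImplicit false

namespace Fermat.Agent.H65

/-- **ES-C1-DEG**: the degree of the degeneracy map `α : X₀(N ℓ) → X₀(N)` over `ℂ` is `ℓ + 1`
for every prime `ℓ ∤ N`. -/
theorem degreeAlphaStatement : Fermat.Agent.H21.EsC.DegreeAlphaStatement ℂ :=
  degreeAlphaStatement_of_degreeC (fun M _ => Fermat.Agent.H69.DegC.degreeC M)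

end Fermat.Agent.H65
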